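import Mathlib

/-!
# S18 / piece G (helper438): two-chart Cech calculus, pure algebra (Mathlib only)

Setting.  `R` a commutative ring, `F` a commutative `R`-algebra, `x y : F` with `x * y = 1`.
`b : Fin s → F`, `c : Fin t → F` two finite families ("generators of the two charts").

* `Mfin := polySpan R x b`  = the `R[x]`-submodule of `F` generated by the `b i`,
* `Minf := polySpan R y c`  = the `R[y]`-submodule of `F` generated by the `c j`,
* `Mmid := laurentSpan R x y b` = the `R[x, y]`-submodule generated by the `b i`.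

Gluing hypotheses (`d e : ℕ`):  `hb : ∀ i, y ^ d * b i ∈ Minf`,  `hc : ∀ j, x ^ e * c j ∈ Mfin`.

Main results (`H¹ = Mmid / (Mfin + Minf)`, twisted `H¹(n) = Mmid / (Mfin + x ^ n Minf)`):

* `laurentSpan_le_sup_twist`   : `H¹(n) = 0` for `d ≤ n + 1`:  `Mmid ≤ Mfin ⊔ x ^ n • Minf`.
* `laurentSpan_le_sup_span`    : `H¹` is a finitely generated `R`-module:
                                 `Mmid ≤ Mfin ⊔ Minf ⊔ span_R {y ^ a * b i | 1 ≤ a < d}`.
* `exists_lift_of_sub_mem_smul`: integral surjectivity. For an ideal `I` of `R`, `d ≤ n + 1`,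
     `f₁ ∈ Mfin`, `f₂ ∈ Minf` with `f₁ - x ^ n * f₂ ∈ I • Mmid` there are `g₁ ∈ Mfin`, `g₂ ∈ Minf` with
     `g₁ = x ^ n * g₂`, `g₁ - f₁ ∈ I • Mfin`, `g₂ - f₂ ∈ I • Minf`.
     (`Mfin ∩ x ^ n Minf → (Mfin / I) ∩ x ^ n (Minf / I)` is onto.)
-/

set_option autoImplicit false

namespace Fermat.Agent.S18.H438

open Submodule

section Defs

variable (R : Type*) {F : Type*} [CommRing R] [CommRing F] [Algebra R F]

/-- The `R[x]`-submodule of `F` generated by the finite family `b`, as an `R`-submodule. -/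
def polySpan (x : F) {s : ℕ} (b : Fin s → F) : Submodule R F :=
  Submodule.span R {f | ∃ (i : Fin s) (k : ℕ), f = x ^ k * b i}

/-- The `R[x, y]`-submodule of `F` generated by the finite family `b`, as an `R`-submodule. -/
def laurentSpan (x y : F) {s : ℕ} (b : Fin s → F) : Submodule R F :=
  Submodule.span R {f | ∃ (i : Fin s) (k l : ℕ), f = x ^ k * y ^ l * b i}

end Defs

section Basic

variable {R F : Type*} [CommRing R] [CommRing F] [Algebra R F]
variable {x y : F} {s t : ℕ} {b : Fin s → F} {c : Fin t → F}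

theorem pow_mul_mem_polySpan (i : Fin s) (k : ℕ) : x ^ k * b i ∈ polySpan R x b :=
  Submodule.subset_span ⟨i, k, rfl⟩

theorem mem_polySpan_self (i : Fin s) : b i ∈ polySpan R x b := by
  have := pow_mul_mem_polySpan (R := R) (x := x) (b := b) i 0
  simpa using this

/-- `polySpan` is stable under multiplication by `x`. -/
theorem mul_mem_polySpan {f : F} (hf : f ∈ polySpan R x b) : x * f ∈ polySpan R x b := by
  unfold polySpan at hf ⊢
  induction hf using Submodule.span_induction with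
  | mem f hf =>
    obtain ⟨i, k, rfl⟩ := hf
    refine Submodule.subset_span ⟨i, k + 1, ?_⟩
    ring
  | zero => simp
  | add f g _ _ hf hg => rw [mul_add]; exact Submodule.add_mem _ hf hg
  | smul r f _ hf => rw [mul_smul_comm]; exact Submodule.smul_mem _ r hf

/-- `polySpan` is stable under multiplication by powers of `x`. -/
theorem pow_mul_mem_polySpan_of_mem {f : F} (hf : f ∈ polySpan R x b) (k : ℕ) :
    x ^ k * f ∈ polySpan R x b := by
  induction k with
  | zero => simpa using hf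
  | succ k ih =>
    have := mul_mem_polySpan ih
    rwa [← mul_assoc, ← pow_succ'] at this

theorem polySpan_le_laurentSpan : polySpan R x b ≤ laurentSpan R x y b := by
  unfold polySpan laurentSpan
  refine Submodule.span_mono ?_
  rintro f ⟨i, k, rfl⟩
  exact ⟨i, k, 0, by simp⟩

theorem mul_pow_mul_mem_laurentSpan (i : Fin s) (k l : ℕ) :
    x ^ k * y ^ l * b i ∈ laurentSpan R x y b :=
  Submodule.subset_span ⟨i, k, l, rfl⟩

/-- `laurentSpan` is stable under multiplication by `x`. -/
theorem mul_mem_laurentSpan_left {f : F} (hf : f ∈ laurentSpan R x y b) :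
    x * f ∈ laurentSpan R x y b := by
  unfold laurentSpan at hf ⊢
  induction hf using Submodule.span_induction with
  | mem f hf =>
    obtain ⟨i, k, l, rfl⟩ := hf
    refine Submodule.subset_span ⟨i, k + 1, l, ?_⟩
    ring
  | zero => simp
  | add f g _ _ hf hg => rw [mul_add]; exact Submodule.add_mem _ hf hg
  | smul r f _ hf => rw [mul_smul_comm]; exact Submodule.smul_mem _ r hf

/-- `laurentSpan` is stable under multiplication by `y`. -/
theorem mul_mem_laurentSpan_right {f : F} (hf : f ∈ laurentSpan R x y b) :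
    y * f ∈ laurentSpan R x y b := by
  unfold laurentSpan at hf ⊢
  induction hf using Submodule.span_induction with
  | mem f hf =>
    obtain ⟨i, k, l, rfl⟩ := hf
    refine Submodule.subset_span ⟨i, k, l + 1, ?_⟩
    ring
  | zero => simp
  | add f g _ _ hf hg => rw [mul_add]; exact Submodule.add_mem _ hf hg
  | smul r f _ hf => rw [mul_smul_comm]; exact Submodule.smul_mem _ r hf

theorem pow_mul_mem_laurentSpan_left {f : F} (hf : f ∈ laurentSpan R x y b) (k : ℕ) :
    x ^ k * f ∈ laurentSpan R x y b := by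
  induction k with
  | zero => simpa using hf
  | succ k ih =>
    have := mul_mem_laurentSpan_left ih
    rwa [← mul_assoc, ← pow_succ'] at this

theorem pow_mul_mem_laurentSpan_right {f : F} (hf : f ∈ laurentSpan R x y b) (k : ℕ) :
    y ^ k * f ∈ laurentSpan R x y b := by
  induction k with
  | zero => simpa using hf
  | succ k ih =>
    have := mul_mem_laurentSpan_right ih
    rwa [← mul_assoc, ← pow_succ'] at this

/-- The second chart lies in the overlap: `Minf ≤ Mmid`, provided `x ^ e * c j ∈ Mfin`. -/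
theorem polySpan_inf_le_laurentSpan (hxy : x * y = 1) {e : ℕ}
    (hc : ∀ j, x ^ e * c j ∈ polySpan R x b) :
    polySpan R y c ≤ laurentSpan R x y b := by
  unfold polySpan
  rw [Submodule.span_le]
  rintro f ⟨j, k, rfl⟩
  have h1 : x ^ e * c j ∈ laurentSpan R x y b := polySpan_le_laurentSpan (hc j)
  have h2 := pow_mul_mem_laurentSpan_right (pow_mul_mem_laurentSpan_right h1 e) k
  have hxye : y ^ e * x ^ e = 1 := by rw [← mul_pow, mul_comm, hxy, one_pow]
  have : y ^ k * (y ^ e * (x ^ e * c j)) = y ^ k * c j := by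
    rw [← mul_assoc (y ^ e), hxye, one_mul]
  rw [this] at h2
  exact h2

end Basic

section Main

variable {R F : Type*} [CommRing R] [CommRing F] [Algebra R F]
variable {x y : F} {s t : ℕ} {b : Fin s → F} {c : Fin t → F}

/-- The twist `x ^ n • Minf` as an `R`-submodule. -/
def twist (x : F) (n : ℕ) (M : Submodule R F) : Submodule R F :=
  M.map (LinearMap.mulLeft R (x ^ n))

theorem mem_twist {n : ℕ} {M : Submodule R F} {f : F} :
    f ∈ twist x n M ↔ ∃ g ∈ M, x ^ n * g = f := by
  simp [twist, Submodule.mem_map]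

/-- A Laurent monomial times a generator lies in `Mfin + x ^ n Minf` as soon as `d ≤ n + 1`. -/
theorem monomial_mem_sup_twist (hxy : x * y = 1) {d : ℕ}
    (hb : ∀ i, y ^ d * b i ∈ polySpan R y c) {n : ℕ} (hn : d ≤ n + 1) (i : Fin s) (k l : ℕ) :
    x ^ k * y ^ l * b i ∈ polySpan R x b ⊔ twist x n (polySpan R y c) := by
  have hxyp : ∀ m : ℕ, x ^ m * y ^ m = 1 := fun m => by rw [← mul_pow, hxy, one_pow]
  rcases le_or_gt l k with hlk | hlk
  · -- nonnegative exponent
    refine Submodule.mem_sup_left ?_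
    obtain ⟨a, rfl⟩ := Nat.exists_eq_add_of_le hlk
    have : x ^ (l + a) * y ^ l * b i = x ^ a * b i := by
      rw [pow_add, mul_comm (x ^ l), mul_assoc (x ^ a), hxyp, mul_one]
    rw [this]
    exact pow_mul_mem_polySpan i a
  · -- negative exponent `-(a+1)`, `l = k + a + 1`
    refine Submodule.mem_sup_right ?_
    obtain ⟨a, rfl⟩ := Nat.exists_eq_add_of_lt hlk
    rw [mem_twist]
    -- `y ^ (a + 1 + n) * b i ∈ Minf`
    have hd : d ≤ a + 1 + n := by omega
    obtain ⟨u, hu⟩ := Nat.exists_eq_add_of_le hd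
    have hmem : y ^ (a + 1 + n) * b i ∈ polySpan R y c := by
      rw [hu, add_comm d u, pow_add, mul_assoc]
      exact pow_mul_mem_polySpan_of_mem (hb i) u
    refine ⟨_, hmem, ?_⟩
    have h1 : x ^ n * (y ^ (a + 1 + n) * b i) = y ^ (a + 1) * b i := by
      rw [pow_add, ← mul_assoc, ← mul_assoc, mul_comm (x ^ n) (y ^ (a + 1)),
        mul_assoc (y ^ (a + 1)), hxyp, mul_one]
    have h2 : x ^ k * y ^ (k + a + 1) * b i = y ^ (a + 1) * b i := by
      rw [add_assoc, pow_add y k, ← mul_assoc, hxyp, one_mul]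
    rw [h1, h2]

/-- **Vanishing of the twisted `H¹`.**  For `d ≤ n + 1`: `Mmid ≤ Mfin ⊔ x ^ n • Minf`. -/
theorem laurentSpan_le_sup_twist (hxy : x * y = 1) {d : ℕ}
    (hb : ∀ i, y ^ d * b i ∈ polySpan R y c) {n : ℕ} (hn : d ≤ n + 1) :
    laurentSpan R x y b ≤ polySpan R x b ⊔ twist x n (polySpan R y c) := by
  unfold laurentSpan
  rw [Submodule.span_le]
  rintro f ⟨i, k, l, rfl⟩
  exact monomial_mem_sup_twist hxy hb hn i k l

/-- The finite set of classes generating `H¹ = Mmid / (Mfin + Minf)`. -/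
def gapSet (y : F) {s : ℕ} (b : Fin s → F) (d : ℕ) : Set F :=
  {f | ∃ (i : Fin s) (a : ℕ), a < d ∧ f = y ^ a * b i}

theorem gapSet_finite (d : ℕ) : (gapSet y b d).Finite := by
  have : gapSet y b d ⊆ Set.range (fun p : Fin s × Fin d => y ^ (p.2 : ℕ) * b p.1) := by
    rintro f ⟨i, a, ha, rfl⟩
    exact ⟨(i, ⟨a, ha⟩), rfl⟩
  exact (Set.finite_range _).subset this

/-- **Finite generation of `H¹`.**  `Mmid ≤ Mfin ⊔ Minf ⊔ span_R (gapSet)`, where the gap set
`{y ^ a * b i | a < d}` is finite. -/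
theorem laurentSpan_le_sup_span (hxy : x * y = 1) {d : ℕ}
    (hb : ∀ i, y ^ d * b i ∈ polySpan R y c) :
    laurentSpan R x y b ≤
      polySpan R x b ⊔ polySpan R y c ⊔ Submodule.span R (gapSet y b d) := by
  have hxyp : ∀ m : ℕ, x ^ m * y ^ m = 1 := fun m => by rw [← mul_pow, hxy, one_pow]
  unfold laurentSpan
  rw [Submodule.span_le]
  rintro f ⟨i, k, l, rfl⟩
  rcases le_or_gt l k with hlk | hlk
  · refine Submodule.mem_sup_left (Submodule.mem_sup_left ?_)
    obtain ⟨a, rfl⟩ := Nat.exists_eq_add_of_le hlk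
    have : x ^ (l + a) * y ^ l * b i = x ^ a * b i := by
      rw [pow_add, mul_comm (x ^ l), mul_assoc (x ^ a), hxyp, mul_one]
    rw [this]
    exact pow_mul_mem_polySpan i a
  · obtain ⟨a, rfl⟩ := Nat.exists_eq_add_of_lt hlk
    have h2 : x ^ k * y ^ (k + a + 1) * b i = y ^ (a + 1) * b i := by
      rw [add_assoc, pow_add y k, ← mul_assoc, hxyp, one_mul]
    rw [h2]
    rcases lt_or_ge (a + 1) d with had | had
    · exact Submodule.mem_sup_right (Submodule.subset_span ⟨i, a + 1, had, rfl⟩)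
    · refine Submodule.mem_sup_left (Submodule.mem_sup_right ?_)
      obtain ⟨u, hu⟩ := Nat.exists_eq_add_of_le had
      rw [hu, add_comm d u, pow_add, mul_assoc]
      exact pow_mul_mem_polySpan_of_mem (hb i) u

/-- **Integral surjectivity** (`H⁰(O(n)) → H⁰(O(n) / I)` is onto when `H¹(O(n)) = 0`).
Let `I` be an ideal of `R` and `d ≤ n + 1`.  If `f₁ ∈ Mfin` and `f₂ ∈ Minf` satisfy
`f₁ ≡ x ^ n * f₂` modulo `I • Mmid`, then there are `g₁ ∈ Mfin`, `g₂ ∈ Minf` with
`g₁ = x ^ n * g₂`, `g₁ ≡ f₁` modulo `I • Mfin` and `g₂ ≡ f₂` modulo `I • Minf`. -/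
theorem exists_lift_of_sub_mem_smul (hxy : x * y = 1) {d : ℕ}
    (hb : ∀ i, y ^ d * b i ∈ polySpan R y c) {n : ℕ} (hn : d ≤ n + 1) (I : Ideal R)
    {f₁ f₂ : F} (hf₁ : f₁ ∈ polySpan R x b) (hf₂ : f₂ ∈ polySpan R y c)
    (h : f₁ - x ^ n * f₂ ∈ I • laurentSpan R x y b) :
    ∃ g₁ ∈ polySpan R x b, ∃ g₂ ∈ polySpan R y c, g₁ = x ^ n * g₂ ∧
      g₁ - f₁ ∈ I • polySpan R x b ∧ g₂ - f₂ ∈ I • polySpan R y c := by
  -- every element of `I • Mmid` is `u + x ^ n * v` with `u ∈ I • Mfin`, `v ∈ I • Minf`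
  have key : ∀ z ∈ I • laurentSpan R x y b,
      ∃ u ∈ I • polySpan R x b, ∃ v ∈ I • polySpan R y c, z = u + x ^ n * v := by
    intro z hz
    refine Submodule.smul_induction_on hz ?_ ?_
    · intro r hr m hm
      have hm' := laurentSpan_le_sup_twist hxy hb hn hm
      obtain ⟨u, hu, v', hv', rfl⟩ := Submodule.mem_sup.1 hm'
      obtain ⟨v, hv, rfl⟩ := mem_twist.1 hv'
      refine ⟨r • u, Submodule.smul_mem_smul hr hu, r • v, Submodule.smul_mem_smul hr hv, ?_⟩
      rw [smul_add, mul_smul_comm]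
    · rintro z₁ z₂ ⟨u₁, hu₁, v₁, hv₁, rfl⟩ ⟨u₂, hu₂, v₂, hv₂, rfl⟩
      refine ⟨u₁ + u₂, Submodule.add_mem _ hu₁ hu₂, v₁ + v₂, Submodule.add_mem _ hv₁ hv₂, ?_⟩
      ring
  obtain ⟨u, hu, v, hv, huv⟩ := key _ h
  have hIfin : I • polySpan R x b ≤ polySpan R x b := Submodule.smul_le_right
  have hIinf : I • polySpan R y c ≤ polySpan R y c := Submodule.smul_le_right
  refine ⟨f₁ - u, Submodule.sub_mem _ hf₁ (hIfin hu), f₂ + v,
    Submodule.add_mem _ hf₂ (hIinf hv), ?_, ?_, ?_⟩
  · have : f₁ = x ^ n * f₂ + (u + x ^ n * v) := by rw [← huv]; ring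
    calc f₁ - u = x ^ n * f₂ + (u + x ^ n * v) - u := by rw [← this]
      _ = x ^ n * (f₂ + v) := by ring
  · have : f₁ - u - f₁ = -u := by ring
    rw [this]
    exact Submodule.neg_mem _ hu
  · have : f₂ + v - f₂ = v := by ring
    rw [this]
    exact hv

/-- The Cech `H¹` of the two charts, `Mmid / (Mfin + Minf)`, as an `R`-module. -/
abbrev CechH1 (R : Type*) {F : Type*} [CommRing R] [CommRing F] [Algebra R F] (x y : F)
    {s t : ℕ} (b : Fin s → F) (c : Fin t → F) : Type _ :=
  ↥(laurentSpan R x y b) ⧸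
    (polySpan R x b ⊔ polySpan R y c).comap (laurentSpan R x y b).subtype

theorem gapSet_subset_laurentSpan (d : ℕ) :
    gapSet y b d ⊆ (laurentSpan R x y b : Set F) := by
  rintro f ⟨i, a, -, rfl⟩
  have := mul_pow_mul_mem_laurentSpan (R := R) (x := x) (y := y) (b := b) i 0 a
  simpa using this

/-- **`H¹` is a finitely generated `R`-module**, generated by the classes of the
`y ^ a * b i`, `a < d`. -/
theorem finite_cechH1 (hxy : x * y = 1) {d : ℕ}
    (hb : ∀ i, y ^ d * b i ∈ polySpan R y c) :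
    Module.Finite R (CechH1 R x y b c) := by
  classical
  set Mmid := laurentSpan R x y b with hMmid
  set N := (polySpan R x b ⊔ polySpan R y c).comap Mmid.subtype with hN
  -- the gap set, viewed inside `Mmid`
  let T : Set Mmid := {m | (m : F) ∈ gapSet y b d}
  have hTfin : T.Finite := by
    have hinj : Set.InjOn (fun m : Mmid => (m : F)) T := fun _ _ _ _ h => Subtype.ext h
    exact Set.Finite.of_finite_image ((gapSet_finite (y := y) (b := b) d).subset
      (by rintro _ ⟨m, hm, rfl⟩; exact hm)) hinj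
  refine ⟨?_⟩
  have hspan : Submodule.span R (N.mkQ '' T) = ⊤ := by
    rw [eq_top_iff]
    rintro q -
    obtain ⟨m, rfl⟩ := N.mkQ_surjective q
    have hm := laurentSpan_le_sup_span (c := c) hxy hb m.2
    obtain ⟨u, hu, v, hv, huv⟩ := Submodule.mem_sup.1 hm
    -- `v ∈ span (gapSet)`, lift it to `Mmid`
    have hv' : ∃ v' : Mmid, (v' : F) = v ∧ v' ∈ Submodule.span R T := by
      clear huv
      induction hv using Submodule.span_induction with
      | mem f hf =>
        exact ⟨⟨f, gapSet_subset_laurentSpan d hf⟩, rfl, Submodule.subset_span hf⟩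
      | zero => exact ⟨0, rfl, Submodule.zero_mem _⟩
      | add f g _ _ hf hg =>
        obtain ⟨f', rfl, hf'⟩ := hf
        obtain ⟨g', rfl, hg'⟩ := hg
        exact ⟨f' + g', rfl, Submodule.add_mem _ hf' hg'⟩
      | smul r f _ hf =>
        obtain ⟨f', rfl, hf'⟩ := hf
        exact ⟨r • f', rfl, Submodule.smul_mem _ r hf'⟩
    obtain ⟨v', hv'1, hv'2⟩ := hv'
    have hmv : m - v' ∈ N := by
      rw [hN, Submodule.mem_comap]
      have : Mmid.subtype (m - v') = u := by
        simp only [map_sub, Submodule.subtype_apply, hv'1, ← huv]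
        ring
      rw [this]
      exact hu
    have hq : N.mkQ m = N.mkQ v' := by
      rw [← sub_eq_zero, ← map_sub]
      exact (Submodule.Quotient.mk_eq_zero N).2 hmv
    rw [hq, ← Submodule.map_span]
    exact Submodule.mem_map_of_mem hv'2
  exact ⟨(hTfin.image N.mkQ).toFinset, by rw [Set.Finite.coe_toFinset]; exact hspan⟩

end Main

end Fermat.Agent.S18.H438
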