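import Mathlib

/-!
# S18 / piece G (helper438): rank comparison over a valuation ring (Mathlib only)

`A` a valuation ring with fraction field `L`, `k` any field which is an `A`-algebra (in the
application the residue field).  `V` an `L`-vector space, `V'` a `k`-vector space,
`M ⊆ V` an `A`-submodule, `red : M →ₗ[A] V'` ("reduction").

* `exists_normalise` : a finite family of elements of `L`, not all zero, can be divided by one of
  its nonzero members so that all quotients lie in `A`.
* `linearIndependent_of_red` : a family in `M` whose reductions are `k`-linearly independent is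
  `L`-linearly independent.
* `finrank_le_of_red` : if a `k`-subspace `W ⊆ V'` consists of reductions of elements of `M`, and
  `M` is contained in a finite-dimensional `L`-subspace `U ⊆ V`, then `W` is finite-dimensional and
  `dim_k W ≤ dim_L U`.
  (Application: `dim_k L_k(n D̄) ≤ dim_L L(n D)` from integral surjectivity, hence
  `genus (F_k) ≥ genus (F)` by Riemann's theorem.)
-/

set_option autoImplicit false

namespace Fermat.Agent.S18.H438

section Normalise

variable (A : Type*) {L : Type*} [CommRing A] [IsDomain A] [ValuationRing A] [Field L]
  [Algebra A L] [IsFractionRing A L]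

/-- In the fraction field of a valuation ring, a finite family which is not identically zero has a
nonzero member `l j` such that all quotients `l i / l j` are integral. -/
theorem exists_normalise {ι : Type*} (s : Finset ι) (l : ι → L) (h : ∃ i ∈ s, l i ≠ 0) :
    ∃ j ∈ s, l j ≠ 0 ∧ ∀ i ∈ s, ∃ a : A, algebraMap A L a = l i / l j := by
  classical
  obtain ⟨i₀, hi₀, hne⟩ := h
  obtain ⟨j, hj, hmax⟩ :=
    Finset.exists_max_image s (fun i => ValuationRing.valuation A L (l i)) ⟨i₀, hi₀⟩
  have hj0 : l j ≠ 0 := by
    intro h0
    have h1 := hmax i₀ hi₀
    simp only [h0, map_zero] at h1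
    exact hne ((ValuationRing.valuation A L).zero_iff.1 (le_antisymm h1 zero_le))
  refine ⟨j, hj, hj0, fun i hi => ?_⟩
  rw [← ValuationRing.mem_integer_iff, Valuation.mem_integer_iff, map_div₀]
  have hvj : ValuationRing.valuation A L (l j) ≠ 0 :=
    (ValuationRing.valuation A L).ne_zero_iff.2 hj0
  rw [div_le_one₀ (zero_lt_iff.2 hvj)]
  exact hmax i hi

end Normalise

section Red

variable {A L k V V' : Type*} [CommRing A] [IsDomain A] [ValuationRing A] [Field L]
  [Algebra A L] [IsFractionRing A L] [Field k] [Algebra A k]
  [AddCommGroup V] [Module A V] [Module L V] [IsScalarTower A L V]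
  [AddCommGroup V'] [Module A V'] [Module k V'] [IsScalarTower A k V']

/-- **Lifting independence.**  A family of elements of the `A`-lattice `M ⊆ V` whose reductions
are linearly independent over `k` is linearly independent over `L = Frac A`. -/
theorem linearIndependent_of_red (M : Submodule A V) (red : M →ₗ[A] V') {ι : Type*}
    (f : ι → M) (h : LinearIndependent k (fun i => red (f i))) :
    LinearIndependent L (fun i => (f i : V)) := by
  classical
  rw [linearIndependent_iff']
  intro s g hsum
  by_contra hcon
  push Not at hcon
  obtain ⟨i₀, hi₀, hne⟩ := hcon
  obtain ⟨j, hj, hj0, hint⟩ := exists_normalise A s g ⟨i₀, hi₀, hne⟩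
  choose! a ha using hint
  -- the normalised relation in `M`
  have hrel : ∑ i ∈ s, a i • f i = 0 := by
    apply Subtype.ext
    rw [Submodule.coe_sum, Submodule.coe_zero]
    have h1 : ∀ i ∈ s, ((a i • f i : M) : V) = (g j)⁻¹ • (g i • (f i : V)) := by
      intro i hi
      rw [Submodule.coe_smul, ← algebraMap_smul L (a i) (f i : V), ha i hi, smul_smul,
        div_eq_inv_mul]
    rw [Finset.sum_congr rfl h1, ← Finset.smul_sum, hsum, smul_zero]
  have hred : ∑ i ∈ s, algebraMap A k (a i) • red (f i) = 0 := by
    have := congrArg red hrel
    rw [map_sum, map_zero] at this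
    rw [← this]
    refine Finset.sum_congr rfl fun i _ => ?_
    rw [map_smul, algebraMap_smul]
  have hz := (linearIndependent_iff'.1 h) s (fun i => algebraMap A k (a i)) hred j hj
  have haj : a j = 1 := by
    apply IsFractionRing.injective A L
    rw [ha j hj, div_self hj0, map_one]
  rw [haj, map_one] at hz
  exact one_ne_zero hz

/-- **Semicontinuity of dimension.**  If every element of the `k`-subspace `W ⊆ V'` is the
reduction of an element of the lattice `M`, and `M` lies in the finite-dimensional `L`-subspace
`U ⊆ V`, then `W` is finite-dimensional of dimension at most `dim_L U`. -/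
theorem finrank_le_of_red (M : Submodule A V) (red : M →ₗ[A] V')
    (W : Submodule k V') (U : Submodule L V) [FiniteDimensional L U]
    (hMU : ∀ m : M, (m : V) ∈ U) (hW : ∀ w ∈ W, ∃ m : M, red m = w) :
    FiniteDimensional k W ∧ Module.finrank k W ≤ Module.finrank L U := by
  classical
  -- every finite `k`-independent family of `W` has at most `finrank L U` members
  have key : ∀ (n : ℕ) (w : Fin n → W), LinearIndependent k w → n ≤ Module.finrank L U := by
    intro n w hw
    choose m hm using fun i => hW (w i) (w i).2
    have h1 : LinearIndependent k (fun i => red (m i)) := by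
      have h2 : LinearIndependent k (fun i => ((w i : W) : V')) :=
        hw.map' W.subtype (Submodule.ker_subtype W)
      convert h2 using 2
      exact hm _
    have h3 := linearIndependent_of_red (L := L) M red m h1
    -- view the family inside `U`
    let u : Fin n → U := fun i => ⟨(m i : V), hMU (m i)⟩
    have h4 : LinearIndependent L u := by
      apply LinearIndependent.of_comp U.subtype
      exact h3
    have := h4.fintype_card_le_finrank
    simpa using this
  have hfin : FiniteDimensional k W := by
    by_contra hinf
    -- an infinite-dimensional space has independent families of any finite size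
    have hrank : Cardinal.aleph0 ≤ Module.rank k W := by
      by_contra hlt
      push Not at hlt
      exact hinf (Module.rank_lt_aleph0_iff.1 hlt)
    obtain ⟨w, hw⟩ := exists_linearIndependent_of_le_rank
      (R := k) (M := W) (n := Module.finrank L U + 1)
      (le_trans (le_of_lt Cardinal.natCast_lt_aleph0) hrank)
    have := key _ w hw
    omega
  refine ⟨hfin, ?_⟩
  have b := Module.finBasis k W
  exact key _ b b.linearIndependent

end Red

end Fermat.Agent.S18.H438
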